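import Fermat.Agent.IsogenyNF.GLAdelic
import Fermat.Agent.GoodReductionNF.Potential

/-!
# The degree of the field of the points killed by `n`

It is finite and at most `n ^ 4`, the Galois group embedding in the matrices of size two over
`ℤ / n`.
-/

set_option autoImplicit false
set_option linter.unusedSectionVars false

noncomputable section

open WeierstrassCurve Matrix FA.IsogenyNF
open scoped WeierstrassCurve.Affine Classical

namespace FA.IntegralJTorsion

universe u v

variable {K : Type u} [Field K] [NumberField K] {Kb : Type v} [Field Kb] [DecidableEq Kb]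
  [Algebra K Kb] [CharZero Kb] [IsAlgClosed Kb] [Algebra.IsAlgebraic K Kb]
  (E : WeierstrassCurve K) [E.IsElliptic]

theorem finiteDimensional_torField {n : ℕ} (hn : n ≠ 0) :
    FiniteDimensional K (torField Kb E n) := by
  have hfin := finite_nsmul_eq_zero (W := E) (Kb := Kb) (n := n) hn
  have : Finite ↑(FA.ClassNumberOne.xP '' {P : (E.toAffine⁄Kb).Point | n • P = 0} ∪
      FA.ClassNumberOne.yP '' {P : (E.toAffine⁄Kb).Point | n • P = 0}) :=
    ((hfin.image _).union (hfin.image _)).to_subtype
  exact IntermediateField.finiteDimensional_adjoin fun x _ => Algebra.IsIntegral.isIntegral x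

/-- **The degree is at most `n ^ 4`.** -/
theorem finrank_torField_le {n : ℕ} (hn : n ≠ 0) :
    Module.finrank K (torField Kb E n) ≤ n ^ 4 := by
  have : IsAlgClosure K Kb := ⟨inferInstance, inferInstance⟩
  have : IsGalois K Kb := IsAlgClosure.isGalois K Kb
  have : NeZero n := ⟨hn⟩
  have := finiteDimensional_torField (Kb := Kb) E hn
  obtain ⟨P, Q, h⟩ := exists_torGen_level (Kb := Kb) E hn
  let ψ := (h.rep hn).toHomUnits
  have hfix : (torField Kb E n).fixingSubgroup = ψ.ker := by
    ext σ
    rw [IntermediateField.mem_fixingSubgroup_iff, MonoidHom.mem_ker]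
    constructor
    · refine fun hσ => Units.ext (Matrix.ext_of_mulVec_single fun i => h.coord_injective hn ?_)
      rw [Units.val_one, one_mulVec, MonoidHom.coe_toHomUnits, ← h.rep_spec]
      exact smul_torField E hσ (h.nsmul_coord _)
    · refine fun hσ => torField_fixed E fun R hR => ?_
      obtain ⟨v, rfl⟩ := h.coord_surj hR
      rw [h.rep_spec hn, show h.rep hn σ = 1 from congrArg Units.val hσ, one_mulVec]
  rw [IntermediateField.finrank_eq_fixingSubgroup_index, hfix, Subgroup.index_ker]
  refine (Nat.card_le_card_of_injective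
    (fun u : ψ.range => ((u.1 : GL (Fin 2) (ZMod n)) : Matrix (Fin 2) (Fin 2) (ZMod n)))
    fun a b hab => Subtype.ext (Units.ext hab)).trans_eq ?_
  rw [show Matrix (Fin 2) (Fin 2) (ZMod n) = (Fin 2 → Fin 2 → ZMod n) from rfl]
  simp [Nat.card_fun, ← pow_mul]

end FA.IntegralJTorsion
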