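import Fermat.Agent.Frob.MapHom
import Fermat.Agent.IntegralJTorsion.Degree
import Fermat.Agent.OddDegreeTorsion.Reduction

/-!
# Bounded torsion where the invariant is an algebraic integer

Over the field of the points of order five and seven such a curve has good reduction everywhere,
so its torsion embeds in the points over a residue field at a place above a large prime.
-/

set_option autoImplicit false
set_option linter.unusedSectionVars false

noncomputable section

open WeierstrassCurve NumberField IsDedekindDomain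
open FA.IsogenyNF (torField)
open scoped WeierstrassCurve.Affine Classical

namespace FA.IntegralJTorsion

/-- The bound in degree `d`. -/
def bound (d : ℕ) : ℝ :=
  (Real.sqrt (((2 * (35 ^ 4 * d + 2) : ℕ) : ℝ) ^ (35 ^ 4 * d)) + 1) ^ 2

universe u

variable {K : Type u} [Field K] [NumberField K]

theorem exists_place_above (L : Type*) [Field L] [NumberField L] {p : ℕ} (hp : p.Prime) :
    ∃ v : HeightOneSpectrum (𝓞 L), (p : 𝓞 L) ∈ v.asIdeal := by
  have hne : Ideal.span {(p : 𝓞 L)} ≠ ⊤ := fun h => by
    have h1 := Ideal.absNorm_span_natCast (S := 𝓞 L) p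
    rw [h, Ideal.absNorm_top, RingOfIntegers.rank] at h1
    rcases Nat.pow_eq_one.1 h1.symm with h2 | h2
    · exact hp.ne_one h2
    · exact Module.finrank_pos.ne' h2
  obtain ⟨P, hP, hle⟩ := Ideal.exists_le_maximal _ hne
  have hmem : (p : 𝓞 L) ∈ P := hle (Ideal.mem_span_singleton_self _)
  refine ⟨⟨P, hP.isPrime, fun hbot => ?_⟩, hmem⟩
  rw [hbot, Ideal.mem_bot] at hmem
  exact hp.ne_zero (Nat.cast_eq_zero.1 hmem)

/-- **Bounded torsion for an integral invariant.** -/
theorem torsion_le_bound (E : WeierstrassCurve K) [E.IsElliptic] (hj : IsIntegral ℤ E.j) {d : ℕ}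
    (hd : Module.finrank ℚ K ≤ d) :
    Finite (AddCommGroup.torsion E.toAffine.Point) ∧
      (Nat.card (AddCommGroup.torsion E.toAffine.Point) : ℝ) ≤ bound d := by
  let Kb := AlgebraicClosure K
  set L : IntermediateField K Kb := torField Kb E 5 ⊔ torField Kb E 7
  have := finiteDimensional_torField (Kb := Kb) E (n := 5) (by norm_num)
  have := finiteDimensional_torField (Kb := Kb) E (n := 7) (by norm_num)
  have : FiniteDimensional K L := IntermediateField.finiteDimensional_sup _ _
  have : NumberField L := NumberField.of_module_finite K L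
  have hdeg : Module.finrank ℚ L ≤ 35 ^ 4 * d := by
    rw [← Module.finrank_mul_finrank ℚ K L, mul_comm]
    refine Nat.mul_le_mul (IntermediateField.finrank_sup_le _ _ |>.trans
      ((Nat.mul_le_mul (finrank_torField_le E (by norm_num))
        (finrank_torField_le E (by norm_num))).trans_eq (by norm_num))) hd
  obtain ⟨p, hp, hlt, hle⟩ :=
    Nat.exists_prime_lt_and_le_two_mul (35 ^ 4 * d + 2) (by omega)
  obtain ⟨v, hv⟩ := exists_place_above L hp
  obtain ⟨C, hI, hΔ⟩ :=
    FA.GoodNF.goodAt_torField Kb hj L le_sup_left le_sup_right v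
  set EL := E.map (algebraMap K L) with hEL
  set V := C • EL with hV
  have hdp : Module.finrank ℚ L + 1 < p := by omega
  obtain ⟨hfin, hdvd⟩ := FA.OddDegreeTorsion.torsion_card_dvd_reduction v hI hΔ hp hv hdp
  let _ : DecidableEq L := fun a b => Classical.propDecidable (a = b)
  let e := FA.Frob.vcEquiv C (rfl : C • EL = V)
  let m : E.toAffine.Point →+ EL.toAffine.Point :=
    FA.Frob.mapHom (algebraMap K L) rfl
  let r : AddCommGroup.torsion E.toAffine.Point →+ AddCommGroup.torsion V.toAffine.Point :=
    ((e.symm.toAddMonoidHom.comp m).comp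
        (AddCommGroup.torsion E.toAffine.Point).subtype).codRestrict
      _ fun P => (e.symm.toAddMonoidHom.comp m).isOfFinAddOrder P.2
  have hr : Function.Injective r := fun P Q h => Subtype.ext
    (FA.Frob.mapHom_injective (algebraMap K L) rfl
      (e.symm.injective (congrArg Subtype.val h)))
  refine ⟨Finite.of_injective r hr, ?_⟩
  refine (Nat.cast_le.2 (Nat.card_le_card_of_injective r hr)).trans
    ((FA.OddDegreeTorsion.torsion_card_le v hI hΔ hp hv hdp).trans ?_)
  have h1 : Ideal.absNorm v.asIdeal ≤ p ^ Module.finrank ℚ L := by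
    rw [← RingOfIntegers.rank L, ← Ideal.absNorm_span_natCast]
    refine Nat.le_of_dvd (Nat.pos_of_ne_zero ?_)
      (Ideal.absNorm_dvd_absNorm_of_le ((Ideal.span_singleton_le_iff_mem _).2 hv))
    rw [Ideal.absNorm_span_natCast]
    exact pow_ne_zero _ hp.ne_zero
  have h2 : Ideal.absNorm v.asIdeal ≤ (2 * (35 ^ 4 * d + 2)) ^ (35 ^ 4 * d) :=
    h1.trans ((Nat.pow_le_pow_left hle _).trans (Nat.pow_le_pow_right (by omega) hdeg))
  unfold bound
  gcongr
  exact_mod_cast h2

end FA.IntegralJTorsion
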